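import Fermat.Agent.S43.Soc.Bridge

/-!
# S43 / Soc / Rel : (L4), (L5) of the TBlock, relative elementwise form

Ambient groups `KK`, `KV`, subgroups `HH ≤ KK`, `VV ≤ KV`; all hypotheses elementwise with membership.
`K0 := io (Koo ∩ HH)` is built inside.
-/

set_option autoImplicit false
set_option linter.style.haveILetI false

namespace Fermat.Agent.S43.Soc

open Finset

section Rel

variable {KK KV : Type*} [AddCommGroup KK] [AddCommGroup KV]

/-- restriction of an additive map to a stable subgroup. -/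
def resE (HH : AddSubgroup KK) (f : KK →+ KK) (hf : ∀ y ∈ HH, f y ∈ HH) : HH →+ HH :=
  (f.comp HH.subtype).codRestrict HH (fun y => hf y y.2)

theorem resE_coe (HH : AddSubgroup KK) (f : KK →+ KK) (hf : ∀ y ∈ HH, f y ∈ HH) (y : HH) :
    ((resE HH f hf y : HH) : KK) = f y := rfl

/-- **(L4), (L5).** -/
theorem rel_L45 (HH : AddSubgroup KK) (VV : AddSubgroup KV) [Finite HH]
    {p a K : ℕ} (hp : p.Prime) (hp2 : p ≠ 2) (hKpos : 0 < K)
    (hK : ∀ y ∈ HH, p ^ K • y = 0)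
    (dl io SgK PhK PhiK : KK →+ KK) (SgV : KV →+ KV) (pull : KV →+ KK)
    -- stability
    (hdlH : ∀ y ∈ HH, dl y ∈ HH) (hioH : ∀ y ∈ HH, io y ∈ HH)
    (hSgH : ∀ y ∈ HH, SgK y ∈ HH) (hPhH : ∀ y ∈ HH, PhK y ∈ HH) (hPhiH : ∀ y ∈ HH, PhiK y ∈ HH)
    (hSgVV : ∀ v ∈ VV, SgV v ∈ VV) (hpullH : ∀ v ∈ VV, pull v ∈ HH)
    -- commutation with `dl`
    (hdS : ∀ y ∈ HH, dl (SgK y) = SgK (dl y)) (hdP : ∀ y ∈ HH, dl (PhK y) = PhK (dl y))
    (hPP : ∀ y ∈ HH, PhK (PhiK y) = y) (hPP' : ∀ y ∈ HH, PhiK (PhK y) = y)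
    (hdln : ∀ y ∈ HH, dl^[p ^ a] y = y)
    -- (H1)
    (hNDpull : ∀ y ∈ HH, ∃ v ∈ VV, pull v = ∑ i ∈ range (p ^ a), dl^[i] y)
    (hpullND : ∀ v ∈ VV, ∃ y ∈ HH, ∑ i ∈ range (p ^ a), dl^[i] y = pull v)
    (hkerND : ∀ y ∈ HH, ∑ i ∈ range (p ^ a), dl^[i] y = 0 → ∃ y' ∈ HH, dl y' - y' = y)
    (hinj : ∀ v ∈ VV, pull v = 0 → v = 0)
    (hpS : ∀ v ∈ VV, pull (SgV v) = SgK (pull v))
    -- X-level
    (hDIV : ∀ P ∈ VV, p • P = 0 → ∃ y ∈ VV, P = p ^ (K - 1) • y)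
    (hI1 : ∀ P ∈ VV, p • P = 0 → SgV P = P → ∃ y ∈ VV, p • y = 0 ∧ P = SgV y - y)
    (hN2 : ∀ v ∈ VV, SgV (SgV v - v) = SgV v - v)
    -- (S1)
    (Koo : AddSubgroup KK) (hKd : ∀ y ∈ Koo, dl y ∈ Koo)
    (hS1 : ∀ y ∈ HH, SgK y - y ∈ Koo) (hS1' : ∀ y ∈ HH, PhK (SgK (PhiK y)) - y ∈ Koo)
    -- sharp (d)
    (hd : ∀ v ∈ VV, pull v ∈ Koo → SgV v = v)
    -- (L6)
    (hio1 : ∀ y ∈ HH, dl (io (dl y)) = io y) (hio2 : ∀ y ∈ HH, io (PhK y) = PhK (io y))
    (hio3 : ∀ y ∈ HH, dl (io (SgK y)) = SgK (io y)) (hio4 : ∀ y ∈ HH, io y = 0 → y = 0) :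
    (∀ y ∈ HH, dl (SgK (SgK y - dl y) - (SgK y - dl y)) = SgK (SgK y - dl y) - (SgK y - dl y)) ∧
    (∀ y ∈ HH, dl (PhK (SgK y) - SgK (PhK y)) = PhK (SgK y) - SgK (PhK y)) := by
  classical
  let dlH : AddMonoid.End HH := resE HH dl hdlH
  let SgH : HH →+ HH := resE HH SgK hSgH
  let PhH : HH →+ HH := resE HH PhK hPhH
  let PhiH : HH →+ HH := resE HH PhiK hPhiH
  let ioH : HH →+ HH := resE HH io hioH
  have dlH_pow : ∀ (i : ℕ) (y : HH), (((dlH ^ i) y : HH) : KK) = dl^[i] (y : KK) := by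
    intro i
    induction i with
    | zero => intro y; rfl
    | succ i ih =>
      intro y
      rw [pow_succ]
      show (((dlH ^ i) (dlH y) : HH) : KK) = _
      rw [ih, Function.iterate_succ_apply]
      rfl
  have hdlHn : dlH ^ (p ^ a) = 1 := DFunLike.ext _ _ fun y => Subtype.ext (by
    rw [dlH_pow, hdln y y.2]; rfl)
  have NmH : ∀ y : HH, ((Nm dlH (p ^ a) y : HH) : KK) = ∑ i ∈ range (p ^ a), dl^[i] (y : KK) := by
    intro y
    rw [Nm_apply]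
    show HH.subtype _ = _
    rw [map_sum]
    exact Finset.sum_congr rfl fun i _ => dlH_pow i y
  let pullH : VV →+ HH := (pull.comp VV.subtype).codRestrict HH (fun v => hpullH v v.2)
  have pullH_coe : ∀ v : VV, ((pullH v : HH) : KK) = pull (v : KV) := fun _ => rfl
  have hinjH : Function.Injective pullH := by
    refine (injective_iff_map_eq_zero pullH).2 fun v hv => ?_
    exact Subtype.ext (hinj v v.2 (congrArg Subtype.val hv))
  have hex : ∀ y : HH, ∃ v : VV, pullH v = Nm dlH (p ^ a) y := by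
    intro y
    obtain ⟨v, hv, h⟩ := hNDpull y y.2
    exact ⟨⟨v, hv⟩, Subtype.ext (by rw [NmH]; exact h)⟩
  choose kap0 hkap0 using hex
  let kap : HH →+ VV := AddMonoidHom.mk' kap0 (fun y z => hinjH (by
    rw [hkap0, map_add pullH, hkap0, hkap0, map_add]))
  have hpull : ∀ y : HH, pullH (kap y) = Nm dlH (p ^ a) y := fun y => hkap0 y
  have hkap : Function.Surjective kap := by
    intro v
    obtain ⟨y, hy, h⟩ := hpullND v v.2
    refine ⟨⟨y, hy⟩, hinjH ?_⟩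
    rw [hpull]
    exact Subtype.ext (by rw [NmH]; exact h)
  have hker : ∀ h : HH, kap h = 0 → ∃ h' : HH, h = dlH h' - h' := by
    intro h hh
    have h1 : Nm dlH (p ^ a) h = 0 := by rw [← hpull, hh, map_zero]
    have h2 := congrArg Subtype.val h1
    rw [NmH] at h2
    obtain ⟨y', hy', e⟩ := hkerND h h.2 h2
    exact ⟨⟨y', hy'⟩, Subtype.ext e.symm⟩
  have hkd : ∀ h : HH, kap (dlH h) = kap h := fun h => hinjH (by
    rw [hpull, hpull, Nm_dl dlH _ hdlHn])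
  let SgVV : VV →+ VV := resE VV SgV hSgVV
  let N : VV →+ VV := SgVV - AddMonoidHom.id VV
  have N_coe : ∀ v : VV, ((N v : VV) : KV) = SgV (v : KV) - v := fun _ => rfl
  have hSd : ∀ h : HH, SgH (dlH h) = dlH (SgH h) := fun h => Subtype.ext (hdS h h.2).symm
  have hSN : ∀ h : HH, kap (SgH h - h) = N (kap h) := by
    intro h
    apply hinjH
    rw [hpull, map_sub, ← comm_Nm dlH _ SgH hSd, ← hpull]
    apply Subtype.ext
    show SgK (pull (kap h : KV)) - pull (kap h : KV) = pull (SgV (kap h : KV) - (kap h : KV))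
    rw [map_sub, hpS _ (kap h).2]
  have hKH : ∀ x : HH, p ^ K • x = 0 := fun x => Subtype.ext (hK x x.2)
  have hDIV' : ∀ P : VV, p • P = 0 → ∃ y, P = p ^ (K - 1) • y := by
    intro P hP
    obtain ⟨y, hy, e⟩ := hDIV P P.2 (congrArg Subtype.val hP)
    exact ⟨⟨y, hy⟩, Subtype.ext e⟩
  have hI1' : ∀ P : VV, p • P = 0 → N P = 0 → ∃ y, p • y = 0 ∧ P = N y := by
    intro P hP hNP
    have h1 : SgV (P : KV) = P := sub_eq_zero.1 (congrArg Subtype.val hNP)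
    obtain ⟨y, hy, e1, e2⟩ := hI1 P P.2 (congrArg Subtype.val hP) h1
    exact ⟨⟨y, hy⟩, Subtype.ext e1, Subtype.ext e2⟩
  have hN2' : ∀ v : VV, N (N v) = 0 := by
    intro v
    apply Subtype.ext
    show SgV (SgV (v : KV) - v) - (SgV (v : KV) - v) = 0
    rw [hN2 v v.2, sub_self]
  -- the involution
  have hioinj : Function.Injective ioH := by
    refine (injective_iff_map_eq_zero ioH).2 fun y hy => ?_
    exact Subtype.ext (hio4 y y.2 (congrArg Subtype.val hy))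
  have hiobij : Function.Bijective ioH := ⟨hioinj, Finite.injective_iff_surjective.1 hioinj⟩
  let ioE : HH ≃+ HH := AddEquiv.ofBijective ioH hiobij
  let Kc : AddSubgroup HH := Koo.addSubgroupOf HH
  have hKc_mem : ∀ y : HH, y ∈ Kc ↔ (y : KK) ∈ Koo := fun _ => AddSubgroup.mem_addSubgroupOf
  let K0 : AddSubgroup HH := Kc.map (ioE : HH →+ HH)
  have hKcd : ∀ x ∈ Kc, dlH x ∈ Kc := fun x hx => (hKc_mem _).2 (hKd _ ((hKc_mem _).1 hx))
  have hKcdp : ∀ (i : ℕ), ∀ x ∈ Kc, (dlH ^ i) x ∈ Kc := by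
    intro i
    induction i with
    | zero => intro x hx; exact hx
    | succ i ih =>
      intro x hx
      rw [pow_succ]
      exact ih _ (hKcd x hx)
  -- `dl (io k) = io (dl^(n-1) k)`
  have hn : 0 < p ^ a := pow_pos hp.pos _
  have hdio : ∀ k : HH, dlH (ioH k) = ioH ((dlH ^ (p ^ a - 1)) k) := by
    intro k
    have h1 : dlH ((dlH ^ (p ^ a - 1)) k) = k := by
      have : dlH * dlH ^ (p ^ a - 1) = 1 := by
        rw [← pow_succ', Nat.sub_add_cancel hn, hdlHn]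
      exact DFunLike.congr_fun this k
    have h2 := hio1 _ ((dlH ^ (p ^ a - 1)) k).2
    apply Subtype.ext
    show dl (io (k : KK)) = io (((dlH ^ (p ^ a - 1)) k : HH) : KK)
    rw [← h2]
    have h3 : dl (((dlH ^ (p ^ a - 1)) k : HH) : KK) = k := congrArg Subtype.val h1
    rw [h3]
  have hK0of : ∀ k ∈ Kc, dlH (ioH k) ∈ K0 := by
    intro k hk
    rw [hdio]
    exact ⟨_, hKcdp _ k hk, rfl⟩
  have hKc1 : ∀ x : HH, SgH x - x ∈ Kc := fun x => (hKc_mem _).2 (hS1 x x.2)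
  have hK01 : ∀ x : HH, SgH x - dlH x ∈ K0 := by
    intro x
    obtain ⟨y, rfl⟩ := hiobij.2 x
    have e : SgH (ioH y) - dlH (ioH y) = dlH (ioH (SgH y - y)) := by
      apply Subtype.ext
      show SgK (io (y : KK)) - dl (io (y : KK)) = dl (io (SgK (y : KK) - y))
      rw [map_sub, map_sub, hio3 y y.2]
    rw [e]
    exact hK0of _ (hKc1 y)
  let s' : HH → HH := fun x => PhH (SgH (PhiH x))
  have hKc2 : ∀ x : HH, s' x - x ∈ Kc := fun x => (hKc_mem _).2 (hS1' x x.2)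
  have hioPhi : ∀ y : HH, PhiK (io (y : KK)) = io (PhiK (y : KK)) := by
    intro y
    have h1 := hio2 _ (hPhiH y y.2)
    rw [hPP y y.2] at h1
    rw [h1, hPP' _ (hioH _ (hPhiH y y.2))]
  have hK02 : ∀ x : HH, s' x - dlH x ∈ K0 := by
    intro x
    obtain ⟨y, rfl⟩ := hiobij.2 x
    have e : s' (ioH y) - dlH (ioH y) = dlH (ioH (s' y - y)) := by
      apply Subtype.ext
      show PhK (SgK (PhiK (io (y : KK)))) - dl (io (y : KK))
        = dl (io (PhK (SgK (PhiK (y : KK))) - y))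
      rw [map_sub, map_sub, hioPhi, ← hio3 _ (hPhiH y y.2),
        ← hdP _ (hioH _ (hSgH _ (hPhiH y y.2))), ← hio2 _ (hSgH _ (hPhiH y y.2))]
    rw [e]
    exact hK0of _ (hKc2 y)
  have hd' : ∀ v : VV, pullH v ∈ Kc → N v = 0 := by
    intro v hv
    apply Subtype.ext
    show SgV (v : KV) - v = 0
    rw [hd v v.2 ((hKc_mem _).1 hv), sub_self]
  have c1 := c1K hp hp2 hKpos hKH dlH hdlHn kap hkap hker pullH hpull N hDIV' hI1' Kc hKcd hd'
  have c2 : Nat.card HH ≤ Nat.card (HH ⧸ K0) ^ 2 := by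
    rw [card_quot_map Kc ioE]; exact c1
  obtain ⟨b1, b2, -, -⟩ := bridge hp hp2 hKpos hKH dlH hdlHn kap hkap hker hkd pullH hinjH hpull N
    hDIV' hI1' hN2' SgH hSd hSN Kc K0 hKcd hKc1 hK01 hd' c2
  have hfix : ∀ x : HH, dlH (Nm dlH (p ^ a) x) = Nm dlH (p ^ a) x := dl_Nm dlH _ hdlHn
  refine ⟨fun y hy => ?_, fun y hy => ?_⟩
  · obtain ⟨z, hz⟩ := b1 ⟨y, hy⟩
    have h1 := hfix (SgH z - z)
    rw [← hz] at h1
    exact congrArg Subtype.val h1
  · obtain ⟨z, hz⟩ := b2 s' hKc2 hK02 (PhH ⟨y, hy⟩)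
    have h1 := hfix (SgH z - z)
    rw [← hz] at h1
    have h2 := congrArg Subtype.val h1
    have h3 : ((s' (PhH ⟨y, hy⟩) - SgH (PhH ⟨y, hy⟩) : HH) : KK) = PhK (SgK y) - SgK (PhK y) := by
      show PhK (SgK (PhiK (PhK y))) - SgK (PhK y) = _
      rw [hPP' y hy]
    have h4 : ((dlH (s' (PhH ⟨y, hy⟩) - SgH (PhH ⟨y, hy⟩)) : HH) : KK)
        = dl ((s' (PhH ⟨y, hy⟩) - SgH (PhH ⟨y, hy⟩) : HH) : KK) := rfl
    rw [h4, h3] at h2
    exact h2

end Rel

end Fermat.Agent.S43.Soc
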