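import Fermat.Agent.S43.Soc.Abs

/-!
# S43 / Soc / C123 : the three inequalities (c1), (c2), (c3) of COUNT from (I1) at exponent `p` + (DIV) + (d*)

`V` finite, killed by `p^K`, `N : V →+ V`.
* (DIV)   `p • P = 0 → P = p^(K-1) • y`;
* (I1)_p  `p • P = 0 → N P = 0 → P = N y`, `p • y = 0`.

`exists_xy` : adapted families `x : Fin d → V`, `y : Fin (2 d) → V`.
`c3`, `c3'` : `#V ≤ #(V/ker N)^2`, `#ker N ^ 2 ≤ #V`.
`c1`        : `#H ≤ #(H / S H)^2` for `S = Σ - 1`, given `kap`, `pull` and (d*).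
`card_quot_range_eq`, `c2` : transport by the involution.
-/

set_option autoImplicit false
set_option linter.style.haveILetI false

namespace Fermat.Agent.S43.Soc

open Finset

section XY

variable {V : Type*} [AddCommGroup V]

/-- adapted families. -/
theorem exists_xy [Finite V] {p K : ℕ} (hp : p.Prime) (hK0 : 0 < K) (hK : ∀ v : V, p ^ K • v = 0)
    (N : V →+ V)
    (hDIV : ∀ P : V, p • P = 0 → ∃ y, P = p ^ (K - 1) • y)
    (hI1 : ∀ P : V, p • P = 0 → N P = 0 → ∃ y, p • y = 0 ∧ P = N y) :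
    ∃ (d : ℕ) (x : Fin d → V) (y : Fin (2 * d) → V),
      (∀ v, ∃ c : Fin (2 * d) → ℤ, v = ∑ i, c i • y i) ∧
      (∀ c : Fin d → ℤ, N (∑ i, c i • x i) = 0 → ∀ i, ((p ^ K : ℕ) : ℤ) ∣ c i) := by
  haveI : Fact p.Prime := ⟨hp⟩
  let W : AddSubgroup V := (nsmulAddMonoidHom p : V →+ V).ker
  have hW : ∀ v : V, v ∈ W ↔ p • v = 0 := fun v => Iff.rfl
  letI : Module (ZMod p) W := AddCommGroup.zmodModule (n := p)
    (fun w => Subtype.ext ((hW _).1 w.2))
  let NW : W →+ W := (N.comp W.subtype).codRestrict W (fun w => by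
    rw [hW]
    show p • N (w : V) = 0
    rw [← map_nsmul, (hW _).1 w.2, map_zero])
  have hNW : ∀ w : W, ((NW w : W) : V) = N (w : V) := fun _ => rfl
  let NL : W →ₗ[ZMod p] W := NW.toZModLinearMap p
  have hNL : ∀ w : W, NL w = NW w := fun _ => rfl
  set r := Module.finrank (ZMod p) W with hr
  set d := Module.finrank (ZMod p) (LinearMap.range NL) with hd
  let bW : Module.Basis (Fin r) (ZMod p) W := Module.finBasis _ _
  let bR : Module.Basis (Fin d) (ZMod p) (LinearMap.range NL) := Module.finBasis _ _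
  have hle : r ≤ 2 * d := by
    have h1 := LinearMap.finrank_range_add_finrank_ker NL
    have h2 : LinearMap.ker NL ≤ LinearMap.range NL := by
      intro w hw
      have hw' : N (w : V) = 0 := by
        have := congrArg (Subtype.val) (LinearMap.mem_ker.1 hw)
        exact this
      obtain ⟨y, hy, hPy⟩ := hI1 w ((hW _).1 w.2) hw'
      exact ⟨⟨y, (hW _).2 hy⟩, Subtype.ext hPy.symm⟩
    have h3 := Submodule.finrank_mono h2
    omega
  -- lifts
  have hu : ∀ i, ∃ u : W, NL u = (bR i : W) := fun i => (bR i).2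
  choose u hu using hu
  have hx : ∀ i, ∃ x : V, ((u i : W) : V) = p ^ (K - 1) • x := fun i =>
    hDIV _ ((hW _).1 (u i).2)
  choose x hx using hx
  have hy : ∀ j, ∃ y : V, ((bW j : W) : V) = p ^ (K - 1) • y := fun j =>
    hDIV _ ((hW _).1 (bW j).2)
  choose y' hy' using hy
  have hli : LinearIndependent (ZMod p) (fun i => NL (u i)) := by
    have h1 : LinearIndependent (ZMod p) (fun i => ((bR i : LinearMap.range NL) : W)) :=
      bR.linearIndependent.map' (Submodule.subtype _) (Submodule.ker_subtype _)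
    have h2 : (fun i => NL (u i)) = (fun i => ((bR i : LinearMap.range NL) : W)) := funext hu
    rw [h2]; exact h1
  -- generation by `y'`
  have hgen' : ∀ j : ℕ, j ≤ K → ∀ v : V, p ^ j • v = 0 → ∃ c : Fin r → ℤ, v = ∑ i, c i • y' i := by
    intro j
    induction j with
    | zero =>
      intro _ v hv
      refine ⟨fun _ => 0, ?_⟩
      rw [pow_zero, one_smul] at hv
      simp [hv]
    | succ j ih =>
      intro hj v hv
      have hwm : p ^ j • v ∈ W := by
        rw [hW, smul_smul, ← pow_succ']; exact hv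
      set w : W := ⟨p ^ j • v, hwm⟩ with hw
      have h1 : w = ∑ i, ((bW.repr w i).val : ℤ) • bW i := by
        conv_lhs => rw [← bW.sum_repr w]
        refine Finset.sum_congr rfl fun i _ => ?_
        rw [← Int.cast_smul_eq_zsmul (ZMod p)]
        congr 1
        simp
      have h2 : p ^ j • v = ∑ i, ((bW.repr w i).val : ℤ) • (p ^ (K - 1) • y' i) := by
        have := congrArg W.subtype h1
        rw [map_sum] at this
        calc p ^ j • v = W.subtype w := rfl
          _ = _ := this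
          _ = _ := Finset.sum_congr rfl fun i _ => by
            rw [map_zsmul]
            show _ • ((bW i : W) : V) = _
            rw [hy']
      set e : Fin r → ℤ := fun i => ((bW.repr w i).val : ℤ) with he
      obtain ⟨c', hc'⟩ := ih (by omega) (v - ∑ i, (e i * (p ^ (K - 1 - j) : ℕ)) • y' i) (by
        rw [smul_sub, h2, Finset.smul_sum, sub_eq_zero]
        refine Finset.sum_congr rfl fun i _ => ?_
        rw [← natCast_zsmul (y' i), ← natCast_zsmul (_ • y' i), smul_smul, smul_smul]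
        congr 1
        have : K - 1 = j + (K - 1 - j) := by omega
        conv_lhs => rw [this, pow_add]
        push_cast
        ring)
      refine ⟨fun i => c' i + e i * (p ^ (K - 1 - j) : ℕ), ?_⟩
      simp only [add_smul, Finset.sum_add_distrib]
      rw [← hc']
      abel
  refine ⟨d, x, fun j => if h : j.1 < r then y' ⟨j.1, h⟩ else 0, ?_, ?_⟩
  · intro v
    obtain ⟨c, hc⟩ := hgen' K le_rfl v (hK v)
    refine ⟨fun j => if h : j.1 < r then c ⟨j.1, h⟩ else 0, ?_⟩
    rw [hc]
    have h1 : ∑ i : Fin (2 * d), (if h : i.1 < r then c ⟨i.1, h⟩ else 0) •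
        (if h : i.1 < r then y' ⟨i.1, h⟩ else 0)
        = ∑ i : Fin (2 * d), (if h : i.1 < r then c ⟨i.1, h⟩ • y' ⟨i.1, h⟩ else 0) := by
      refine Finset.sum_congr rfl fun i _ => ?_
      split_ifs <;> simp
    rw [h1]
    rw [Fin.sum_univ_eq_sum_range (fun i => if h : i < r then c ⟨i, h⟩ • y' ⟨i, h⟩ else 0) (2 * d)]
    rw [← Finset.sum_subset (Finset.range_subset_range.2 hle)]
    · rw [← Fin.sum_univ_eq_sum_range (fun i => if h : i < r then c ⟨i, h⟩ • y' ⟨i, h⟩ else 0) r]
      refine Finset.sum_congr rfl fun i _ => ?_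
      simp [i.2]
    · intro i _ hi
      rw [Finset.mem_range] at hi
      simp [hi]
  · intro c hc
    have key : ∀ j : ℕ, j ≤ K → ∀ i, ((p ^ j : ℕ) : ℤ) ∣ c i := by
      intro j
      induction j with
      | zero => intro _ i; simp
      | succ j ih =>
        intro hj
        have ih' := ih (by omega)
        choose e he using ih'
        have h0 : ∑ i, (e i : ZMod p) • NL (u i) = 0 := by
          apply Subtype.ext
          show W.subtype _ = 0
          rw [map_sum]
          have h1 : ∀ i, W.subtype ((e i : ZMod p) • NL (u i)) = e i • N (p ^ (K - 1) • x i) := by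
            intro i
            rw [Int.cast_smul_eq_zsmul, map_zsmul, ← hx]
            rfl
          rw [Finset.sum_congr rfl fun i _ => h1 i]
          have h2 : p ^ (K - 1 - j) • N (∑ i, c i • x i) = 0 := by rw [hc, smul_zero]
          rw [map_sum, Finset.smul_sum] at h2
          rw [← h2]
          refine Finset.sum_congr rfl fun i _ => ?_
          rw [map_zsmul, map_nsmul, he i, ← natCast_zsmul (N (x i)), ← natCast_zsmul (_ • N (x i)),
            smul_smul, smul_smul]
          congr 1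
          have : K - 1 = j + (K - 1 - j) := by omega
          conv_lhs => rw [this, pow_add]
          push_cast
          ring
        have h3 := Fintype.linearIndependent_iff.1 hli _ h0
        intro i
        rw [he i, pow_succ]
        push_cast
        exact mul_dvd_mul_left _ ((ZMod.intCast_zmod_eq_zero_iff_dvd _ _).1 (h3 i))
    exact key K le_rfl

/-- **(c3)**, quotient form. -/
theorem c3 [Finite V] {p K : ℕ} (hp : p.Prime) (hp2 : p ≠ 2) (hK0 : 0 < K)
    (hK : ∀ v : V, p ^ K • v = 0) (N : V →+ V)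
    (hDIV : ∀ P : V, p • P = 0 → ∃ y, P = p ^ (K - 1) • y)
    (hI1 : ∀ P : V, p • P = 0 → N P = 0 → ∃ y, p • y = 0 ∧ P = N y) :
    Nat.card V ≤ Nat.card (V ⧸ N.ker) ^ 2 := by
  obtain ⟨d, x, y, hy, hx⟩ := exists_xy hp hK0 hK N hDIV hI1
  refine card_le_sq (a := 0) hp hp2 hK 1 (one_pow _) N.ker (fun v hv => hv) x ?_ y ?_
  · intro c hc
    refine hx c ?_
    have h1 : ∀ v : V, Nm (1 : AddMonoid.End V) (p ^ 0) v = v := by
      intro v
      rw [Nm_apply]
      simp
    simp only [h1] at hc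
    exact hc
  · intro v
    obtain ⟨c, hc⟩ := hy v
    exact ⟨c, 0, by simpa using hc⟩

/-- **(c3)**, kernel form. -/
theorem c3' [Finite V] {p K : ℕ} (hp : p.Prime) (hp2 : p ≠ 2) (hK0 : 0 < K)
    (hK : ∀ v : V, p ^ K • v = 0) (N : V →+ V)
    (hDIV : ∀ P : V, p • P = 0 → ∃ y, P = p ^ (K - 1) • y)
    (hI1 : ∀ P : V, p • P = 0 → N P = 0 → ∃ y, p • y = 0 ∧ P = N y) :
    Nat.card N.ker ^ 2 ≤ Nat.card V := by
  have h1 := c3 hp hp2 hK0 hK N hDIV hI1
  have h2 := AddSubgroup.card_eq_card_quotient_mul_card_addSubgroup N.ker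
  have h3 : 0 < Nat.card (V ⧸ N.ker) := Nat.card_pos
  rw [h2] at h1 ⊢
  have h4 : Nat.card N.ker ≤ Nat.card (V ⧸ N.ker) := by
    rw [sq] at h1
    exact Nat.le_of_mul_le_mul_left h1 h3
  rw [sq]
  exact Nat.mul_le_mul_right _ h4

end XY

section C1

variable {H V : Type*} [AddCommGroup H] [AddCommGroup V]

/-- **(c1)** : `S = Σ - 1` (or any additive `S` commuting with `dl` satisfying (d*)). -/
theorem c1 [Finite H] {p a K : ℕ} (hp : p.Prime) (hp2 : p ≠ 2) (hK0 : 0 < K)
    (hK : ∀ x : H, p ^ K • x = 0) (dl : AddMonoid.End H) (hdl : dl ^ (p ^ a) = 1)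
    (kap : H →+ V) (hkap : Function.Surjective kap)
    (hker : ∀ h, kap h = 0 → ∃ h', h = dl h' - h')
    (pull : V →+ H) (hpull : ∀ h, pull (kap h) = Nm dl (p ^ a) h)
    (N : V →+ V)
    (hDIV : ∀ P : V, p • P = 0 → ∃ y, P = p ^ (K - 1) • y)
    (hI1 : ∀ P : V, p • P = 0 → N P = 0 → ∃ y, p • y = 0 ∧ P = N y)
    (S : H →+ H) (hS : ∀ h, S (dl h) = dl (S h))
    (hd : ∀ v, pull v ∈ S.range → N v = 0) :
    Nat.card H ≤ Nat.card (H ⧸ S.range) ^ 2 := by
  haveI : Finite V := Finite.of_surjective _ hkap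
  have hKV : ∀ v : V, p ^ K • v = 0 := by
    intro v
    obtain ⟨h, rfl⟩ := hkap v
    rw [← map_nsmul, hK, map_zero]
  obtain ⟨d, x, y, hy, hx⟩ := exists_xy hp hK0 hKV N hDIV hI1
  choose x' hx' using fun i => hkap (x i)
  choose y' hy' using fun i => hkap (y i)
  refine card_le_sq hp hp2 hK dl hdl S.range ?_ x' ?_ y' ?_
  · rintro _ ⟨h, rfl⟩
    exact ⟨dl h, hS h⟩
  · intro c hc
    refine hx c (hd _ ?_)
    rw [map_sum]
    convert hc using 2 with i
    rw [map_zsmul, ← hx', hpull]
  · intro h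
    obtain ⟨c, hc⟩ := hy (kap h)
    obtain ⟨h', hh'⟩ := hker (h - ∑ i, c i • y' i) (by
      rw [map_sub, map_sum, hc, sub_eq_zero]
      refine Finset.sum_congr rfl fun i _ => ?_
      rw [map_zsmul, hy'])
    exact ⟨c, h', by rw [← hh']; abel⟩

/-- transport of the cokernel. -/
theorem card_quot_range_eq (S S' : H →+ H) (e f : H ≃+ H) (h : ∀ x, e (S' x) = S (f x)) :
    Nat.card (H ⧸ S'.range) = Nat.card (H ⧸ S.range) := by
  have h1 : S.range = S'.range.map (e : H →+ H) := by
    ext z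
    constructor
    · rintro ⟨x, rfl⟩
      refine ⟨S' (f.symm x), ⟨_, rfl⟩, ?_⟩
      show e (S' (f.symm x)) = S x
      rw [h, f.apply_symm_apply]
    · rintro ⟨_, ⟨x, rfl⟩, rfl⟩
      exact ⟨f x, (h x).symm⟩
  have h2 := AddSubgroup.index_map_equiv S'.range e
  rw [← h1] at h2
  exact h2.symm

/-- **(c2)** from (c1) and the involution: `io (Σ x) = δ⁻¹ Σ (io x)`, `io (δ x) = δ⁻¹ (io x)`. -/
theorem c2 (Sg dl dli io : H ≃+ H)
    (hc : ∀ x, Sg (dli x) = dli (Sg x))
    (h1 : ∀ x, io (Sg x) = dli (Sg (io x))) (h2 : ∀ x, io (dl x) = dli (io x)) :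
    Nat.card (H ⧸ ((Sg : H →+ H) - (dl : H →+ H)).range)
      = Nat.card (H ⧸ ((Sg : H →+ H) - AddMonoidHom.id H).range) := by
  refine card_quot_range_eq _ _ io (io.trans dli) fun x => ?_
  show io (Sg x - dl x) = Sg (dli (io x)) - dli (io x)
  rw [map_sub, h1, h2, hc]

end C1

end Fermat.Agent.S43.Soc
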