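import Mathlib

/-!
# S43 / Soc : socle + Nakayama counting for modules over `(ℤ/p^K)[Δ]`, `Δ = ⟨δ⟩` cyclic of order `p^a`

`H` an abelian group killed by `p^K`, `dl : H →+ H` with `dl ^ (p^a) = 1`, `w = dl - 1`,
`Nm = ∑_{i < p^a} dl^i`.

* `soc`  : if `Kc ≤ H` is `dl`-stable and `Nm (x i)` (`i : Fin d`) are `ℤ/p^K`-independent modulo `Kc`, then
           `(p^K)^(p^a * d) ≤ #(H ⧸ Kc)`.
* `nak`  : if `y i` (`i : Fin r`) generate `H` modulo `w H`, then `#H ≤ (p^K)^(p^a * r)`.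
* `card_le_sq`, `card_le_sq_range` : the inequality (c1) of COUNT.
-/

set_option autoImplicit false
set_option linter.style.haveILetI false

namespace Fermat.Agent.S43.Soc

open Finset

section Nil

variable {G : Type*} [AddCommGroup G]

theorem sub_one_nilpotent {p a K : ℕ} (hp : p.Prime) (hp2 : p ≠ 2) (s : AddMonoid.End G)
    (hs : s ^ (p ^ a) = 1) (hK : ∀ x : G, p ^ K • x = 0) : (s - 1) ^ (p ^ a * K) = 0 := by
  have hc : Commute s (-1) := (Commute.one_right s).neg_right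
  obtain ⟨r, hr⟩ := hc.exists_add_pow_prime_pow_eq hp a
  have hodd : Odd (p ^ a) := (hp.odd_of_ne_two hp2).pow
  rw [hs, hodd.neg_one_pow, add_neg_cancel, zero_add, ← sub_eq_add_neg] at hr
  rw [pow_mul, hr, mul_assoc, mul_assoc, (Nat.cast_commute p _).mul_pow]
  have h0 : ((p : AddMonoid.End G)) ^ K = 0 := by
    rw [← Nat.cast_pow]
    ext x
    rw [AddMonoid.End.natCast_apply]
    exact hK x
  rw [h0, zero_mul]

theorem exists_killed {T : AddMonoid.End G} {m : ℕ} (hT : T ^ m = 0) (J : AddSubgroup G)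
    (hJ : ∀ c ∈ J, T c ∈ J) {c : G} (hc : c ∈ J) (h0 : c ≠ 0) :
    ∃ c' ∈ J, c' ≠ 0 ∧ T c' = 0 := by
  classical
  have hex : ∃ k, (T ^ k) c = 0 := ⟨m, by rw [hT]; rfl⟩
  have hk : (T ^ (Nat.find hex)) c = 0 := Nat.find_spec hex
  have hk0 : Nat.find hex ≠ 0 := by
    intro h
    rw [h, pow_zero] at hk
    exact h0 hk
  obtain ⟨k', hk'⟩ := Nat.exists_eq_succ_of_ne_zero hk0
  have hmem : ∀ j, (T ^ j) c ∈ J := by
    intro j
    induction j with
    | zero => simpa using hc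
    | succ j ih =>
      rw [pow_succ']
      exact hJ _ ih
  refine ⟨(T ^ k') c, hmem k', ?_, ?_⟩
  · exact Nat.find_min hex (by omega : k' < Nat.find hex)
  · have h1 : T ((T ^ k') c) = (T ^ (Nat.find hex)) c := by
      rw [hk', Nat.succ_eq_add_one, pow_succ']
      rfl
    rw [h1, hk]

end Nil

/-- the norm operator `∑_{i<n} dl^i`. -/
def Nm {H : Type*} [AddCommGroup H] (dl : AddMonoid.End H) (n : ℕ) : AddMonoid.End H :=
  ∑ i ∈ range n, dl ^ i

theorem Nm_apply {H : Type*} [AddCommGroup H] (dl : AddMonoid.End H) (n : ℕ) (x : H) :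
    Nm dl n x = ∑ i ∈ range n, (dl ^ i) x := by
  unfold Nm
  exact AddMonoidHom.finsetSum_apply _ _ _

/-- coefficient vectors. -/
abbrev PP (d n m : ℕ) : Type := Fin d → ZMod n → ZMod m

/-- the shift. -/
def sh (d n m : ℕ) : AddMonoid.End (PP d n m) where
  toFun c := fun i j => c i (j - 1)
  map_zero' := rfl
  map_add' _ _ := rfl

theorem sh_apply (d n m : ℕ) (c : PP d n m) (i : Fin d) (j : ZMod n) :
    sh d n m c i j = c i (j - 1) := rfl

theorem sh_pow_apply (d n m : ℕ) (k : ℕ) (c : PP d n m) (i : Fin d) (j : ZMod n) :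
    (sh d n m ^ k) c i j = c i (j - k) := by
  induction k generalizing c with
  | zero => simp
  | succ k ih =>
    rw [pow_succ]
    show (sh d n m ^ k) (sh d n m c) i j = _
    rw [ih, sh_apply]
    congr 1
    push_cast
    ring

theorem sh_pow_self (d n m : ℕ) : sh d n m ^ n = 1 := by
  ext c i j
  rw [sh_pow_apply]
  simp

section Psi

variable {H : Type*} [AddCommGroup H] {m : ℕ} [Module (ZMod m) H]

/-- the evaluation map `(ℤ/m)[Δ]^d → H`. -/
def Psi (dl : AddMonoid.End H) {d n : ℕ} [NeZero n] (x : Fin d → H) : PP d n m →+ H where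
  toFun c := ∑ i, ∑ j : ZMod n, c i j • (dl ^ j.val) (x i)
  map_zero' := by simp
  map_add' c c' := by simp [add_smul, Finset.sum_add_distrib]

theorem Psi_apply (dl : AddMonoid.End H) {d n : ℕ} [NeZero n] (x : Fin d → H) (c : PP d n m) :
    Psi dl x c = ∑ i, ∑ j : ZMod n, c i j • (dl ^ j.val) (x i) := rfl

theorem pow_val_succ (dl : AddMonoid.End H) {n : ℕ} [NeZero n] (h : dl ^ n = 1) (j : ZMod n) :
    dl ^ (j + 1).val = dl * dl ^ j.val := by
  rw [ZMod.val_add, ZMod.val_one_eq_one_mod, Nat.add_mod_mod, ← pow_eq_pow_mod _ h, pow_succ']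

theorem Psi_sh (dl : AddMonoid.End H) {d n : ℕ} [NeZero n] (h : dl ^ n = 1) (x : Fin d → H)
    (c : PP d n m) : Psi dl x (sh d n m c) = dl (Psi dl x c) := by
  rw [Psi_apply, Psi_apply, map_sum]
  refine Finset.sum_congr rfl fun i _ => ?_
  rw [map_sum, ← Equiv.sum_comp (Equiv.addRight (1 : ZMod n))]
  refine Finset.sum_congr rfl fun j _ => ?_
  rw [Equiv.coe_addRight, sh_apply, add_sub_cancel_right, pow_val_succ dl h, ZMod.map_smul]
  rfl

theorem sum_zmod_val {n : ℕ} [NeZero n] (f : ℕ → H) :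
    ∑ j : ZMod n, f j.val = ∑ k ∈ range n, f k := by
  obtain ⟨k, rfl⟩ : ∃ k, n = k + 1 := ⟨n - 1, by have := NeZero.pos n; omega⟩
  exact Fin.sum_univ_eq_sum_range f (k + 1)

theorem Psi_const (dl : AddMonoid.End H) {d n : ℕ} [NeZero n] (x : Fin d → H) (c : PP d n m)
    (hc : ∀ i j, c i j = c i 0) : Psi dl x c = ∑ i, c i 0 • Nm dl n (x i) := by
  rw [Psi_apply]
  refine Finset.sum_congr rfl fun i _ => ?_
  rw [Nm_apply, ← sum_zmod_val (fun k => (dl ^ k) (x i)), Finset.smul_sum]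
  exact Finset.sum_congr rfl fun j _ => by rw [hc i j]

end Psi

theorem card_PP (d n m : ℕ) [NeZero n] [NeZero m] : Nat.card (PP d n m) = m ^ (n * d) := by
  rw [Nat.card_eq_fintype_card, Fintype.card_fun, Fintype.card_fun, ZMod.card, ZMod.card,
    Fintype.card_fin, ← pow_mul]

variable {H : Type*} [AddCommGroup H]

/-- **SOCLE.** -/
theorem soc {p a K d : ℕ} (hp : p.Prime) (hp2 : p ≠ 2) [Finite H] (hK : ∀ x : H, p ^ K • x = 0)
    (dl : AddMonoid.End H) (hdl : dl ^ (p ^ a) = 1) (Kc : AddSubgroup H)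
    (hKc : ∀ x ∈ Kc, dl x ∈ Kc) (x : Fin d → H)
    (hind : ∀ c : Fin d → ℤ, ∑ i, c i • Nm dl (p ^ a) (x i) ∈ Kc → ∀ i, ((p ^ K : ℕ) : ℤ) ∣ c i) :
    (p ^ K) ^ (p ^ a * d) ≤ Nat.card (H ⧸ Kc) := by
  letI : Module (ZMod (p ^ K)) H := AddCommGroup.zmodModule hK
  haveI : NeZero (p ^ a) := ⟨pow_ne_zero _ hp.ne_zero⟩
  haveI : NeZero (p ^ K) := ⟨pow_ne_zero _ hp.ne_zero⟩
  set Ψ : PP d (p ^ a) (p ^ K) →+ H := Psi dl x with hΨ
  set J : AddSubgroup (PP d (p ^ a) (p ^ K)) := Kc.comap Ψ with hJ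
  have hJsh : ∀ c ∈ J, (sh d (p ^ a) (p ^ K) - 1) c ∈ J := by
    intro c hc
    have h1 : sh d (p ^ a) (p ^ K) c ∈ J := by
      rw [hJ, AddSubgroup.mem_comap, hΨ, Psi_sh dl hdl]
      exact hKc _ hc
    exact J.sub_mem h1 hc
  have hnil := sub_one_nilpotent (G := PP d (p ^ a) (p ^ K)) (K := K) hp hp2 (sh d (p ^ a) (p ^ K))
    (sh_pow_self _ _ _) (by
      intro c
      ext i j
      simp)
  have hJbot : ∀ c ∈ J, c = 0 := by
    intro c hc
    by_contra h0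
    obtain ⟨c', hc', h0', hfix⟩ := exists_killed hnil J hJsh hc h0
    have hfix' : sh d (p ^ a) (p ^ K) c' = c' := sub_eq_zero.mp hfix
    have hpow : ∀ k : ℕ, (sh d (p ^ a) (p ^ K) ^ k) c' = c' := by
      intro k
      induction k with
      | zero => simp
      | succ k ih =>
        rw [pow_succ]
        show (sh d (p ^ a) (p ^ K) ^ k) (sh d (p ^ a) (p ^ K) c') = c'
        rw [hfix', ih]
    have hconst : ∀ i j, c' i j = c' i 0 := by
      intro i j
      have h1 := congrFun (congrFun (hpow j.val) i) j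
      rw [sh_pow_apply, ZMod.natCast_zmod_val, sub_self] at h1
      exact h1.symm
    have hmem : ∑ i, ((c' i 0).cast : ℤ) • Nm dl (p ^ a) (x i) ∈ Kc := by
      have h1 : Ψ c' ∈ Kc := hc'
      rw [hΨ, Psi_const dl x c' hconst] at h1
      convert h1 using 2 with i _
      rw [← Int.cast_smul_eq_zsmul (ZMod (p ^ K)), ZMod.intCast_zmod_cast]
    have hz := hind _ hmem
    apply h0'
    ext i j
    rw [hconst i j]
    have h2 := (ZMod.intCast_zmod_eq_zero_iff_dvd _ _).mpr (hz i)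
    rw [ZMod.intCast_zmod_cast] at h2
    simpa using h2
  have hinj : Function.Injective ((QuotientAddGroup.mk' Kc).comp Ψ) := by
    rw [injective_iff_map_eq_zero]
    intro c hc
    apply hJbot
    rw [AddMonoidHom.comp_apply, QuotientAddGroup.mk'_apply, QuotientAddGroup.eq_zero_iff] at hc
    exact hc
  have := Nat.card_le_card_of_injective _ hinj
  rwa [card_PP] at this

/-- **NAKAYAMA.** -/
theorem nak {p a K r : ℕ} (hp : p.Prime) (hp2 : p ≠ 2) [Finite H] (hK : ∀ x : H, p ^ K • x = 0)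
    (dl : AddMonoid.End H) (hdl : dl ^ (p ^ a) = 1) (y : Fin r → H)
    (hgen : ∀ h : H, ∃ (c : Fin r → ℤ) (h' : H), h = ∑ i, c i • y i + (dl h' - h')) :
    Nat.card H ≤ (p ^ K) ^ (p ^ a * r) := by
  letI : Module (ZMod (p ^ K)) H := AddCommGroup.zmodModule hK
  haveI : NeZero (p ^ a) := ⟨pow_ne_zero _ hp.ne_zero⟩
  haveI : NeZero (p ^ K) := ⟨pow_ne_zero _ hp.ne_zero⟩
  set Ψ : PP r (p ^ a) (p ^ K) →+ H := Psi dl y with hΨ
  have hst : ∀ h ∈ Ψ.range, dl h ∈ Ψ.range := by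
    rintro _ ⟨c, rfl⟩
    exact ⟨sh r (p ^ a) (p ^ K) c, Psi_sh dl hdl y c⟩
  have hy : ∀ c : Fin r → ℤ, ∑ i, c i • y i ∈ Ψ.range := by
    intro c
    refine ⟨fun i j => if j = 0 then (c i : ZMod (p ^ K)) else 0, ?_⟩
    rw [hΨ, Psi_apply]
    refine Finset.sum_congr rfl fun i _ => ?_
    rw [Finset.sum_eq_single (0 : ZMod (p ^ a))]
    · simp [Int.cast_smul_eq_zsmul]
    · intro j _ hj
      simp [hj]
    · simp
  have hnil := sub_one_nilpotent (K := K) hp hp2 dl hdl hK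
  have hstep : ∀ k : ℕ, ∀ h : H, ∃ u ∈ Ψ.range, ∃ h' : H, h = u + ((dl - 1) ^ k) h' := by
    intro k
    induction k with
    | zero => exact fun h => ⟨0, Ψ.range.zero_mem, h, by simp⟩
    | succ k ih =>
      intro h
      obtain ⟨u, hu, h', rfl⟩ := ih h
      obtain ⟨c, h'', rfl⟩ := hgen h'
      have hst' : ∀ j : ℕ, ∀ v ∈ Ψ.range, ((dl - 1) ^ j) v ∈ Ψ.range := by
        intro j
        induction j with
        | zero => intro v hv; simpa using hv
        | succ j ihj =>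
          intro v hv
          rw [pow_succ']
          exact Ψ.range.sub_mem (hst _ (ihj v hv)) (ihj v hv)
      refine ⟨u + ((dl - 1) ^ k) (∑ i, c i • y i), Ψ.range.add_mem hu (hst' k _ (hy c)), h'', ?_⟩
      rw [map_add, add_assoc, pow_succ]
      rfl
  have hsurj : Function.Surjective Ψ := by
    intro h
    obtain ⟨u, hu, h', hh⟩ := hstep (p ^ a * K) h
    rw [hnil] at hh
    obtain ⟨c, rfl⟩ := hu
    exact ⟨c, by rw [hh]; simp⟩
  have := Nat.card_le_card_of_surjective _ hsurj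
  rwa [card_PP] at this

/-- (c1), first form. -/
theorem card_le_sq {p a K d : ℕ} (hp : p.Prime) (hp2 : p ≠ 2) [Finite H]
    (hK : ∀ x : H, p ^ K • x = 0) (dl : AddMonoid.End H) (hdl : dl ^ (p ^ a) = 1)
    (Kc : AddSubgroup H) (hKc : ∀ x ∈ Kc, dl x ∈ Kc) (x : Fin d → H)
    (hind : ∀ c : Fin d → ℤ, ∑ i, c i • Nm dl (p ^ a) (x i) ∈ Kc → ∀ i, ((p ^ K : ℕ) : ℤ) ∣ c i)
    (y : Fin (2 * d) → H)
    (hgen : ∀ h : H, ∃ (c : Fin (2 * d) → ℤ) (h' : H), h = ∑ i, c i • y i + (dl h' - h')) :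
    Nat.card H ≤ Nat.card (H ⧸ Kc) ^ 2 := by
  calc Nat.card H ≤ (p ^ K) ^ (p ^ a * (2 * d)) := nak hp hp2 hK dl hdl y hgen
    _ = ((p ^ K) ^ (p ^ a * d)) ^ 2 := by
      rw [← pow_mul (p ^ K) (p ^ a * d) 2, show p ^ a * (2 * d) = p ^ a * d * 2 by ring]
    _ ≤ Nat.card (H ⧸ Kc) ^ 2 := Nat.pow_le_pow_left (soc hp hp2 hK dl hdl Kc hKc x hind) 2

/-- (c1), second form: for `S : H →+ H` with `range S ≤ Kc`. -/
theorem card_le_sq_range {p a K d : ℕ} (hp : p.Prime) (hp2 : p ≠ 2) [Finite H]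
    (hK : ∀ x : H, p ^ K • x = 0) (dl : AddMonoid.End H) (hdl : dl ^ (p ^ a) = 1)
    (Kc : AddSubgroup H) (hKc : ∀ x ∈ Kc, dl x ∈ Kc) (x : Fin d → H)
    (hind : ∀ c : Fin d → ℤ, ∑ i, c i • Nm dl (p ^ a) (x i) ∈ Kc → ∀ i, ((p ^ K : ℕ) : ℤ) ∣ c i)
    (y : Fin (2 * d) → H)
    (hgen : ∀ h : H, ∃ (c : Fin (2 * d) → ℤ) (h' : H), h = ∑ i, c i • y i + (dl h' - h'))
    (S : H →+ H) (hS : S.range ≤ Kc) :
    Nat.card H ≤ Nat.card (H ⧸ S.range) ^ 2 := by
  refine (card_le_sq hp hp2 hK dl hdl Kc hKc x hind y hgen).trans (Nat.pow_le_pow_left ?_ 2)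
  exact Nat.card_le_card_of_surjective (QuotientAddGroup.map S.range Kc (AddMonoidHom.id H) hS)
    (by
      intro z
      obtain ⟨h, rfl⟩ := QuotientAddGroup.mk_surjective z
      exact ⟨(h : H ⧸ S.range), rfl⟩)

end Fermat.Agent.S43.Soc
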