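import Fermat.Agent.S43.Free.Abs

/-!
# S43 / Soc / Basis : freeness bookkeeping  (Mathlib + `Free/Abs`)

`V` a finite abelian group killed by `p ^ K`, `K ≥ 1`, with `(F)`: `p x = 0 → x ∈ p ^ (K-1) V` (i.e. `V` is `ℤ/p^K`-free),
`I ≤ V` with `#V[p] = #(I ∩ V[p]) ^ 2`.  Then there are `d`, `v : Fin d → V` which is `ℤ/p^K`-independent modulo `I`
and `g : Fin (2 d) → V` generating `V`.
-/

set_option autoImplicit false

namespace Fermat.Agent.S43.Soc

open Finset

variable {V : Type*} [AddCommGroup V]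

/-- `V[p]`. -/
def tor (V : Type*) [AddCommGroup V] (p : ℕ) : AddSubgroup V := (nsmulAddMonoidHom p : V →+ V).ker

theorem mem_tor {p : ℕ} {x : V} : x ∈ tor V p ↔ p • x = 0 := Iff.rfl

/-- `ker (p ^ (K-1)) = p V`. -/
theorem exists_eq_nsmul [Finite V] {p K : ℕ} (hK0 : 0 < K) (hK : ∀ x : V, p ^ K • x = 0)
    (hF : ∀ x : V, p • x = 0 → ∃ y, x = p ^ (K - 1) • y) (z : V) (hz : p ^ (K - 1) • z = 0) :
    ∃ y, z = p • y := by
  have hpK : p ^ (K - 1) * p = p ^ K := by
    rw [← pow_succ]; congr 1; omega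
  exact Free.herbrand (nsmulAddMonoidHom p : V →+ V) (nsmulAddMonoidHom (p ^ (K - 1)) : V →+ V)
    (fun x => by
      show p ^ (K - 1) • (p • x) = 0
      rw [smul_smul, hpK, hK])
    (fun x hx => hF x hx)
    (fun x => by
      show p • (p ^ (K - 1) • x) = 0
      rw [smul_smul, mul_comm, hpK, hK]) z hz

/-- Nakayama. -/
theorem gen_of_gen_mod [Finite V] {p K r : ℕ} (hK : ∀ x : V, p ^ K • x = 0) (g : Fin r → V)
    (h : ∀ y : V, ∃ (c : Fin r → ℤ) (y' : V), y = ∑ i, c i • g i + p • y') :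
    ∀ x : V, ∃ c : Fin r → ℤ, x = ∑ i, c i • g i := by
  have key : ∀ j : ℕ, ∀ x : V, ∃ (c : Fin r → ℤ) (y : V), x = ∑ i, c i • g i + p ^ j • y := by
    intro j
    induction j with
    | zero => exact fun x => ⟨0, x, by simp⟩
    | succ j ih =>
      intro x
      obtain ⟨c, y, hx⟩ := ih x
      obtain ⟨c', y', hy⟩ := h y
      refine ⟨fun i => c i + (p ^ j : ℕ) * c' i, y', ?_⟩
      rw [hx, hy, smul_add, Finset.smul_sum, smul_smul, ← pow_succ, ← add_assoc,
        ← Finset.sum_add_distrib]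
      congr 1
      refine Finset.sum_congr rfl fun i _ => ?_
      rw [add_smul, mul_smul, natCast_zsmul]
  intro x
  obtain ⟨c, y, hx⟩ := key K x
  exact ⟨c, by rw [hx, hK, add_zero]⟩

theorem natCard_zmod_module {p : ℕ} [Fact p.Prime] (W : Type*) [AddCommGroup W] [Module (ZMod p) W]
    [Finite W] : Nat.card W = p ^ Module.finrank (ZMod p) W := by
  haveI := Fintype.ofFinite W
  rw [Nat.card_eq_fintype_card, Module.card_eq_pow_finrank (K := ZMod p), ZMod.card]

/-- linear algebra over `𝔽_p`. -/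
theorem lin {p : ℕ} [Fact p.Prime] {T : Type*} [AddCommGroup T] [Module (ZMod p) T] [Finite T]
    (J : AddSubgroup T) (hcard : Nat.card T = Nat.card J ^ 2) :
    ∃ (d : ℕ) (f : Fin d → T) (b : Fin (2 * d) → T),
      (∀ c : Fin d → ℤ, ∑ i, c i • f i ∈ J → ∀ i, (p : ℤ) ∣ c i) ∧
      (∀ x : T, ∃ c : Fin (2 * d) → ℤ, x = ∑ i, c i • b i) := by
  have hp : p.Prime := Fact.out
  have hfd : FiniteDimensional (ZMod p) T := Module.Finite.of_finite
  obtain ⟨J', hJ'⟩ := Submodule.exists_isCompl (AddSubgroup.toZModSubmodule p J)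
  have hfr := Submodule.finrank_add_eq_of_isCompl hJ'
  have hcJ : Nat.card J = Nat.card (AddSubgroup.toZModSubmodule p J) := rfl
  rw [hcJ, natCard_zmod_module (p := p) T,
    natCard_zmod_module (p := p) (AddSubgroup.toZModSubmodule p J), ← pow_mul] at hcard
  have hT := Nat.pow_right_injective hp.two_le hcard
  have hd : Module.finrank (ZMod p) T = 2 * Module.finrank (ZMod p) J' := by omega
  have hgen : ∀ x : T, ∃ c : Fin (Module.finrank (ZMod p) T) → ℤ,
      x = ∑ i, c i • Module.finBasis (ZMod p) T i := by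
    intro x
    choose c hc using fun i => ZMod.intCast_surjective ((Module.finBasis (ZMod p) T).repr x i)
    refine ⟨c, ((Module.finBasis (ZMod p) T).sum_repr x).symm.trans
      (Finset.sum_congr rfl fun i _ => ?_)⟩
    rw [← hc i, Int.cast_smul_eq_zsmul]
  have hind : ∀ c : Fin (Module.finrank (ZMod p) J') → ℤ,
      ∑ i, c i • ((Module.finBasis (ZMod p) J' i : J') : T) ∈ J → ∀ i, (p : ℤ) ∣ c i := by
    intro c hc
    have h3 : ((∑ i, (c i : ZMod p) • Module.finBasis (ZMod p) J' i : J') : T) =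
        ∑ i, c i • ((Module.finBasis (ZMod p) J' i : J') : T) := by
      rw [Submodule.coe_sum]
      refine Finset.sum_congr rfl fun i _ => ?_
      rw [Submodule.coe_smul, Int.cast_smul_eq_zsmul]
    have h5 := (Submodule.disjoint_def.1 hJ'.disjoint) _
      (show ((∑ i, (c i : ZMod p) • Module.finBasis (ZMod p) J' i : J') : T) ∈
        AddSubgroup.toZModSubmodule p J by rw [h3]; exact hc) (Subtype.mem _)
    have h7 := Fintype.linearIndependent_iff.1 (Module.finBasis (ZMod p) J').linearIndependent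
      (fun i => (c i : ZMod p)) (Subtype.ext h5)
    exact fun i => (ZMod.intCast_zmod_eq_zero_iff_dvd _ _).1 (h7 i)
  obtain ⟨r, hr, g', hg'⟩ : ∃ r, r = 2 * Module.finrank (ZMod p) J' ∧ ∃ g' : Fin r → T,
      ∀ x : T, ∃ c : Fin r → ℤ, x = ∑ i, c i • g' i := ⟨_, hd, _, hgen⟩
  subst hr
  exact ⟨_, _, g', hind, hg'⟩

/-- **BASIS.** -/
theorem exists_basis [Finite V] {p K : ℕ} (hp : p.Prime) (hK0 : 0 < K) (hK : ∀ x : V, p ^ K • x = 0)
    (hF : ∀ x : V, p • x = 0 → ∃ y, x = p ^ (K - 1) • y) (I : AddSubgroup V)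
    (hcard : Nat.card (tor V p) = Nat.card (I ⊓ tor V p : AddSubgroup V) ^ 2) :
    ∃ (d : ℕ) (v : Fin d → V) (g : Fin (2 * d) → V),
      (∀ c : Fin d → ℤ, ∑ i, c i • v i ∈ I → ∀ i, ((p ^ K : ℕ) : ℤ) ∣ c i) ∧
      (∀ x : V, ∃ c : Fin (2 * d) → ℤ, x = ∑ i, c i • g i) := by
  have hcJ : Nat.card (I ⊓ tor V p : AddSubgroup V) = Nat.card (I.addSubgroupOf (tor V p)) :=
    Nat.card_congr
      { toFun := fun y => ⟨⟨y.1, y.2.2⟩, y.2.1⟩
        invFun := fun x => ⟨x.1.1, x.2, x.1.2⟩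
        left_inv := fun _ => rfl
        right_inv := fun _ => rfl }
  rw [hcJ] at hcard
  obtain ⟨d, f, b, hf, hb⟩ := @lin p ⟨hp⟩ (tor V p) _
    (AddCommGroup.zmodModule (fun x => Subtype.ext x.2)) _ (I.addSubgroupOf (tor V p)) hcard
  choose v hv using fun i => hF (f i : V) (f i).2
  choose g hg using fun i => hF (b i : V) (b i).2
  refine ⟨d, v, g, ?_, ?_⟩
  · intro c hc
    have key : ∀ j : ℕ, j ≤ K → ∀ i, ((p ^ j : ℕ) : ℤ) ∣ c i := by
      intro j
      induction j with
      | zero => intro _ i; simp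
      | succ j ih =>
        intro hj
        choose c' hc' using ih (by omega)
        have h1 : p ^ (K - 1 - j) • ∑ i, c i • v i ∈ I := I.nsmul_mem hc _
        have h2 : p ^ (K - 1 - j) • ∑ i, c i • v i = ((∑ i, c' i • f i : tor V p) : V) := by
          rw [Finset.smul_sum, AddSubgroup.val_finsetSum]
          refine Finset.sum_congr rfl fun i _ => ?_
          rw [AddSubgroup.coe_zsmul, hv i, hc' i, mul_comm, mul_smul, natCast_zsmul,
            smul_comm (p ^ (K - 1 - j)) (c' i), smul_smul, ← pow_add]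
          congr 3
          omega
        have h8 := hf c' (by rw [AddSubgroup.mem_addSubgroupOf, ← h2]; exact h1)
        intro i
        rw [hc' i, pow_succ, Nat.cast_mul]
        exact mul_dvd_mul_left _ (h8 i)
    exact key K le_rfl
  · refine gen_of_gen_mod (p := p) hK g fun y => ?_
    have hpK : p * p ^ (K - 1) = p ^ K := by
      rw [← pow_succ']; congr 1; omega
    obtain ⟨c, hc⟩ := hb ⟨p ^ (K - 1) • y, by rw [mem_tor, smul_smul, hpK, hK]⟩
    have h2 : p ^ (K - 1) • y = p ^ (K - 1) • ∑ i, c i • g i := by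
      have h3 := congrArg (Subtype.val : tor V p → V) hc
      rw [AddSubgroup.val_finsetSum] at h3
      rw [Finset.smul_sum]
      refine h3.trans (Finset.sum_congr rfl fun i _ => ?_)
      rw [AddSubgroup.coe_zsmul, hg i, smul_comm]
    obtain ⟨y', hy'⟩ := exists_eq_nsmul hK0 hK hF (y - ∑ i, c i • g i) (by rw [smul_sub, h2, sub_self])
    exact ⟨c, y', by rw [← hy']; abel⟩

end Fermat.Agent.S43.Soc
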