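import Fermat.Agent.S43.Soc.C123
import Fermat.Agent.S43.Cnt.Inter
import Fermat.Agent.S43.T.Abs

/-!
# S43 / Soc / Bridge : from (DIV) + (I1)_p + sharp (d) to the fields `type`, `comm` of `T.IsTower`

* `c1K`           : `#H ≤ #(H/Kc)^2` for every `dl`-stable `Kc` with `pull v ∈ Kc → N v = 0`;
* `card_quot_map` : `#(H / io Kc) = #(H / Kc)`;
* `I1K`           : (I1) at exponent `p^K` from (I1) at exponent `p`, (DIV), `N² = 0`;
* `bridge`        : the conclusions of `Cnt.inter_main`, `h3_mod_nm`, `comm_mod_nm`;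
* `isTower_type`, `isTower_comm` : the shape of `T/Abs`.
-/

set_option autoImplicit false
set_option linter.style.haveILetI false

namespace Fermat.Agent.S43.Soc

open Finset

section

variable {H V : Type*} [AddCommGroup H] [AddCommGroup V]

/-- **(c1)** for a general `dl`-stable `Kc`. -/
theorem c1K [Finite H] {p a K : ℕ} (hp : p.Prime) (hp2 : p ≠ 2) (hK0 : 0 < K)
    (hK : ∀ x : H, p ^ K • x = 0) (dl : AddMonoid.End H) (hdl : dl ^ (p ^ a) = 1)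
    (kap : H →+ V) (hkap : Function.Surjective kap)
    (hker : ∀ h, kap h = 0 → ∃ h', h = dl h' - h')
    (pull : V →+ H) (hpull : ∀ h, pull (kap h) = Nm dl (p ^ a) h)
    (N : V →+ V)
    (hDIV : ∀ P : V, p • P = 0 → ∃ y, P = p ^ (K - 1) • y)
    (hI1 : ∀ P : V, p • P = 0 → N P = 0 → ∃ y, p • y = 0 ∧ P = N y)
    (Kc : AddSubgroup H) (hKc : ∀ x ∈ Kc, dl x ∈ Kc)
    (hd : ∀ v, pull v ∈ Kc → N v = 0) :
    Nat.card H ≤ Nat.card (H ⧸ Kc) ^ 2 := by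
  haveI : Finite V := Finite.of_surjective _ hkap
  have hKV : ∀ v : V, p ^ K • v = 0 := by
    intro v
    obtain ⟨h, rfl⟩ := hkap v
    rw [← map_nsmul, hK, map_zero]
  obtain ⟨d, x, y, hy, hx⟩ := exists_xy hp hK0 hKV N hDIV hI1
  choose x' hx' using fun i => hkap (x i)
  choose y' hy' using fun i => hkap (y i)
  refine card_le_sq hp hp2 hK dl hdl Kc hKc x' ?_ y' ?_
  · intro c hc
    refine hx c (hd _ ?_)
    rw [map_sum]
    convert hc using 2 with i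
    rw [map_zsmul, ← hx', hpull]
  · intro h
    obtain ⟨c, hc⟩ := hy (kap h)
    obtain ⟨h', hh'⟩ := hker (h - ∑ i, c i • y' i) (by
      rw [map_sub, map_sum, hc, sub_eq_zero]
      refine Finset.sum_congr rfl fun i _ => ?_
      rw [map_zsmul, hy'])
    exact ⟨c, h', by rw [← hh']; abel⟩

/-- transport of the index by an automorphism. -/
theorem card_quot_map (Kc : AddSubgroup H) (io : H ≃+ H) :
    Nat.card (H ⧸ Kc.map (io : H →+ H)) = Nat.card (H ⧸ Kc) :=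
  AddSubgroup.index_map_equiv Kc io

/-- **(I1) at exponent `p^K`.** -/
theorem I1K [Finite V] {p K : ℕ} (hp : p.Prime) (hp2 : p ≠ 2) (hK0 : 0 < K)
    (hK : ∀ v : V, p ^ K • v = 0) (N : V →+ V)
    (hDIV : ∀ P : V, p • P = 0 → ∃ y, P = p ^ (K - 1) • y)
    (hI1 : ∀ P : V, p • P = 0 → N P = 0 → ∃ y, p • y = 0 ∧ P = N y)
    (hN2 : ∀ v, N (N v) = 0) (v : V) (hv : N v = 0) : ∃ y, v = N y := by
  have h1 := c3' hp hp2 hK0 hK N hDIV hI1
  have h2 : Nat.card N.ker * Nat.card N.range = Nat.card V := by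
    rw [← AddSubgroup.index_ker]; exact AddSubgroup.card_mul_index _
  have hle : N.range ≤ N.ker := by
    rintro _ ⟨y, rfl⟩
    exact hN2 y
  have hpos : 0 < Nat.card N.ker := Nat.card_pos
  have h3 : Nat.card N.ker ≤ Nat.card N.range := by
    rw [← h2, sq] at h1
    exact Nat.le_of_mul_le_mul_left h1 hpos
  have h4 : N.range = N.ker := AddSubgroup.eq_of_le_of_card_ge hle h3
  have : v ∈ N.range := by rw [h4]; exact hv
  obtain ⟨y, hy⟩ := this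
  exact ⟨y, hy.symm⟩

theorem dl_Nm (dl : AddMonoid.End H) (n : ℕ) (hdl : dl ^ n = 1) (x : H) :
    dl (Nm dl n x) = Nm dl n x := by
  have h := mul_geom_sum dl n
  rw [hdl, sub_self, sub_mul, one_mul, sub_eq_zero] at h
  exact DFunLike.congr_fun h x

theorem Nm_dl (dl : AddMonoid.End H) (n : ℕ) (hdl : dl ^ n = 1) (x : H) :
    Nm dl n (dl x) = Nm dl n x := by
  have h := geom_sum_mul dl n
  rw [hdl, sub_self, mul_sub, mul_one, sub_eq_zero] at h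
  exact DFunLike.congr_fun h x

theorem comm_Nm (dl : AddMonoid.End H) (n : ℕ) (S : H →+ H) (hS : ∀ h, S (dl h) = dl (S h))
    (x : H) : S (Nm dl n x) = Nm dl n (S x) := by
  rw [Nm_apply, Nm_apply, map_sum]
  have key : ∀ (i : ℕ) (x : H), S ((dl ^ i) x) = (dl ^ i) (S x) := by
    intro i
    induction i with
    | zero => intro x; rfl
    | succ i ih =>
      intro x
      rw [pow_succ]
      show S ((dl ^ i) (dl x)) = (dl ^ i) (dl (S x))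
      rw [ih, hS]
  exact Finset.sum_congr rfl fun i _ => key i x

/-- **the bridge.** -/
theorem bridge [Finite H] {p a K : ℕ} (hp : p.Prime) (hp2 : p ≠ 2) (hKpos : 0 < K)
    (hK : ∀ x : H, p ^ K • x = 0) (dl : AddMonoid.End H) (hdl : dl ^ (p ^ a) = 1)
    (kap : H →+ V) (hkap : Function.Surjective kap)
    (hker : ∀ h, kap h = 0 → ∃ h', h = dl h' - h') (hkd : ∀ h, kap (dl h) = kap h)
    (pull : V →+ H) (hinj : Function.Injective pull)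
    (hpull : ∀ h, pull (kap h) = Nm dl (p ^ a) h)
    (N : V →+ V)
    (hDIV : ∀ P : V, p • P = 0 → ∃ y, P = p ^ (K - 1) • y)
    (hI1 : ∀ P : V, p • P = 0 → N P = 0 → ∃ y, p • y = 0 ∧ P = N y)
    (hN2 : ∀ v, N (N v) = 0)
    (Sg : H →+ H) (hSd : ∀ h, Sg (dl h) = dl (Sg h)) (hSN : ∀ h, kap (Sg h - h) = N (kap h))
    (Kc K0 : AddSubgroup H) (hKcd : ∀ x ∈ Kc, dl x ∈ Kc)
    (hKc : ∀ x, Sg x - x ∈ Kc) (hK0 : ∀ x, Sg x - dl x ∈ K0)
    (hd : ∀ v, pull v ∈ Kc → N v = 0)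
    (c2 : Nat.card H ≤ Nat.card (H ⧸ K0) ^ 2) :
    (∀ x, ∃ y, Sg (Sg x - dl x) - (Sg x - dl x) = Nm dl (p ^ a) (Sg y - y)) ∧
    (∀ s' : H → H, (∀ x, s' x - x ∈ Kc) → (∀ x, s' x - dl x ∈ K0) →
      ∀ x, ∃ y, s' x - Sg x = Nm dl (p ^ a) (Sg y - y)) ∧
    (∀ x ∈ Kc, ∃ y, x = Sg y - y) ∧ (∀ x ∈ K0, ∃ y, x = Sg y - dl y) := by
  haveI : Finite V := Finite.of_surjective _ hkap
  have hKV : ∀ v : V, p ^ K • v = 0 := by
    intro v
    obtain ⟨h, rfl⟩ := hkap v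
    rw [← map_nsmul, hK, map_zero]
  have c1 := c1K hp hp2 hKpos hK dl hdl kap hkap hker pull hpull N hDIV hI1 Kc hKcd hd
  have hSn : ∀ x, Sg (Nm dl (p ^ a) x) = Nm dl (p ^ a) (Sg x) := comm_Nm dl _ Sg hSd
  have hdn : ∀ x, dl (Nm dl (p ^ a) x) = Nm dl (p ^ a) x := dl_Nm dl _ hdl
  have hnd : ∀ x, Nm dl (p ^ a) (dl x) = Nm dl (p ^ a) x := Nm_dl dl _ hdl
  have h2 : ∀ x, Nm dl (p ^ a) x = 0 → ∃ y, x = dl y - y := by
    intro x hx
    refine hker x (hinj ?_)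
    rw [hpull, hx, map_zero]
  have hI : ∀ x, (∃ y, Sg x - x = dl y - y) → ∃ y z, x = (Sg y - y) + (dl z - z) := by
    rintro x ⟨y, hy⟩
    have h3 : N (kap x) = 0 := by
      rw [← hSN, hy, map_sub, hkd, sub_self]
    obtain ⟨v, hv⟩ := I1K hp hp2 hKpos hKV N hDIV hI1 hN2 _ h3
    obtain ⟨y', rfl⟩ := hkap v
    obtain ⟨z, hz⟩ := hker (x - (Sg y' - y')) (by rw [map_sub, hSN, hv, sub_self])
    exact ⟨y', z, by rw [← hz]; abel⟩
  have main := Cnt.inter_main (dl : H →+ H) Sg (Nm dl (p ^ a) : H →+ H) hSn hdn hnd h2 hI Kc K0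
    hKc hK0 c1 c2
  refine ⟨fun x => ?_, fun s' hs hs0 x => ?_, main.2.1, main.2.2⟩
  · exact Cnt.h3_mod_nm (dl : H →+ H) Sg (Nm dl (p ^ a) : H →+ H) hSd hSn hdn hnd h2 hI Kc K0
      hKc hK0 c1 c2 x
  · exact Cnt.comm_mod_nm (dl : H →+ H) Sg (Nm dl (p ^ a) : H →+ H) hSn hdn hnd h2 hI Kc K0
      hKc hK0 c1 c2 s' hs hs0 x

end

section Shape

variable {H V G : Type*} [AddCommGroup H] [AddCommGroup V] [Group G]
  (ρ : G →* Module.End ℤ H) (δ : Module.End ℤ H) (Φ Sg : G)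

theorem rho_inv_apply (g : G) (x : H) : ρ g (ρ g⁻¹ x) = x := by
  rw [← Module.End.mul_apply, ← map_mul, mul_inv_cancel, map_one, Module.End.one_apply]

/-- field `type` of `T.IsTower`. -/
theorem isTower_type (hδ : ∀ g, δ * ρ g = ρ g * δ)
    (h3 : ∀ x, δ (ρ Sg (ρ Sg x - δ x) - (ρ Sg x - δ x)) = ρ Sg (ρ Sg x - δ x) - (ρ Sg x - δ x)) :
    T.wOp δ * (T.TsOp ρ δ Sg - 2 - T.wOp δ) = 0 := by
  refine LinearMap.ext fun x => ?_
  have hx : ρ Sg (ρ Sg⁻¹ x) = x := rho_inv_apply ρ Sg x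
  set u := ρ Sg⁻¹ x with hu
  have hc : δ (ρ Sg u) = ρ Sg (δ u) := LinearMap.congr_fun (hδ Sg) u
  have e : (T.TsOp ρ δ Sg - 2 - T.wOp δ) x = ρ Sg (ρ Sg u - δ u) - (ρ Sg u - δ u) := by
    have e2 : (2 : Module.End ℤ H) x = x + x := by
      rw [← one_add_one_eq_two]; rfl
    simp only [T.TsOp, T.wOp, LinearMap.sub_apply, LinearMap.add_apply, Module.End.mul_apply,
      Module.End.one_apply, e2]
    rw [← hu, map_sub, ← hc, hx]
    abel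
  rw [Module.End.mul_apply, e]
  show δ _ - (1 : Module.End ℤ H) _ = 0
  rw [h3 u, Module.End.one_apply, sub_self]

/-- field `comm` of `T.IsTower`. -/
theorem isTower_comm
    (hc : ∀ x, δ (ρ (Φ * Sg * Φ⁻¹) x - ρ Sg x) = ρ (Φ * Sg * Φ⁻¹) x - ρ Sg x) :
    T.wOp δ ^ 2 * (ρ Φ * ρ Sg - ρ Sg * ρ Φ) = 0 := by
  refine LinearMap.ext fun x => ?_
  have h1 : (ρ Φ * ρ Sg - ρ Sg * ρ Φ) x = ρ (Φ * Sg * Φ⁻¹) (ρ Φ x) - ρ Sg (ρ Φ x) := by
    have h0 : ρ (Φ * Sg * Φ⁻¹) * ρ Φ = ρ Φ * ρ Sg := by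
      rw [← map_mul, inv_mul_cancel_right, map_mul]
    rw [← Module.End.mul_apply (ρ (Φ * Sg * Φ⁻¹)), h0]
    rfl
  have h2 : T.wOp δ ((ρ Φ * ρ Sg - ρ Sg * ρ Φ) x) = 0 := by
    rw [h1]
    show δ _ - (1 : Module.End ℤ H) _ = 0
    rw [hc, Module.End.one_apply, sub_self]
  rw [pow_two, Module.End.mul_apply, Module.End.mul_apply, h2, map_zero]
  rfl

/-- `δ` as an element of `AddMonoid.End H`. -/
def toE (δ : Module.End ℤ H) : AddMonoid.End H := δ.toAddMonoidHom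

theorem toE_pow_apply (i : ℕ) (x : H) : (toE δ ^ i) x = (δ ^ i) x := by
  induction i generalizing x with
  | zero => rfl
  | succ i ih =>
    rw [pow_succ, pow_succ]
    show (toE δ ^ i) (δ x) = (δ ^ i) (δ x)
    exact ih _

/-- **the two fields of `T.IsTower`, from the concrete leaves.** -/
theorem tower_fields [Finite H] {p a K : ℕ} (hp : p.Prime) (hp2 : p ≠ 2) (hKpos : 0 < K)
    (hK : ∀ x : H, p ^ K • x = 0)
    (hδ : ∀ g, δ * ρ g = ρ g * δ) (hδn : δ ^ (p ^ a) = 1)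
    (kap : H →+ V) (hkap : Function.Surjective kap)
    (hker : ∀ h, kap h = 0 → ∃ h', h = δ h' - h') (hkd : ∀ h, kap (δ h) = kap h)
    (pull : V →+ H) (hinj : Function.Injective pull)
    (hpull : ∀ h, pull (kap h) = ∑ i ∈ range (p ^ a), (δ ^ i) h)
    (N : V →+ V)
    (hDIV : ∀ P : V, p • P = 0 → ∃ y, P = p ^ (K - 1) • y)
    (hI1 : ∀ P : V, p • P = 0 → N P = 0 → ∃ y, p • y = 0 ∧ P = N y)
    (hN2 : ∀ v, N (N v) = 0)
    (hSN : ∀ h, kap (ρ Sg h - h) = N (kap h))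
    (Kc K0 : AddSubgroup H) (hKcd : ∀ x ∈ Kc, δ x ∈ Kc)
    (hKc : ∀ x, ρ Sg x - x ∈ Kc) (hK0 : ∀ x, ρ Sg x - δ x ∈ K0)
    (hKc' : ∀ x, ρ (Φ * Sg * Φ⁻¹) x - x ∈ Kc) (hK0' : ∀ x, ρ (Φ * Sg * Φ⁻¹) x - δ x ∈ K0)
    (hd : ∀ v, pull v ∈ Kc → N v = 0)
    (c2 : Nat.card H ≤ Nat.card (H ⧸ K0) ^ 2) :
    T.wOp δ * (T.TsOp ρ δ Sg - 2 - T.wOp δ) = 0 ∧
      T.wOp δ ^ 2 * (ρ Φ * ρ Sg - ρ Sg * ρ Φ) = 0 := by
  set dl : AddMonoid.End H := toE δ with hdl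
  have hdln : dl ^ (p ^ a) = 1 := by
    refine DFunLike.ext _ _ fun x => ?_
    rw [hdl, toE_pow_apply, hδn]
    rfl
  have hNm : ∀ x, Nm dl (p ^ a) x = ∑ i ∈ range (p ^ a), (δ ^ i) x := by
    intro x
    rw [Nm_apply]
    exact Finset.sum_congr rfl fun i _ => toE_pow_apply δ i x
  obtain ⟨b1, b2, -, -⟩ := bridge hp hp2 hKpos hK dl hdln kap hkap hker hkd pull hinj
    (fun h => by rw [hpull, hNm]) N hDIV hI1 hN2 (ρ Sg).toAddMonoidHom
    (fun h => (LinearMap.congr_fun (hδ Sg) h).symm) hSN Kc K0 hKcd hKc hK0 hd c2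
  have hfix : ∀ x, δ (Nm dl (p ^ a) x) = Nm dl (p ^ a) x := dl_Nm dl _ hdln
  refine ⟨isTower_type ρ δ Sg hδ fun x => ?_, isTower_comm ρ δ Φ Sg fun x => ?_⟩
  · obtain ⟨y, hy⟩ := b1 x
    have hy' : ρ Sg (ρ Sg x - δ x) - (ρ Sg x - δ x) = Nm dl (p ^ a) (ρ Sg y - y) := hy
    rw [hy', hfix]
  · obtain ⟨y, hy⟩ := b2 (fun x => ρ (Φ * Sg * Φ⁻¹) x) hKc' hK0' x
    have hy' : ρ (Φ * Sg * Φ⁻¹) x - ρ Sg x = Nm dl (p ^ a) (ρ Sg y - y) := hy
    rw [hy', hfix]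

end Shape

end Fermat.Agent.S43.Soc
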